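import Mathlib
import Fermat.Prelude.Def_FLTPrelim_Ramification

/-!
# Places of `ℚ̄` above `q` have rank one
-/

set_option autoImplicit false

open Polynomial

namespace Fermat.Agent.AtN

variable {A : ValuationSubring (AlgebraicClosure ℚ)} {q : ℕ}

local notation "v" => A.valuation

theorem valuation_intCast_le (b : ℤ) : v (b : AlgebraicClosure ℚ) ≤ 1 :=
  (A.valuation_le_one_iff _).mpr (intCast_mem A b)

theorem valuation_q_lt (hA : A.LiesOverPrime q) : v (q : AlgebraicClosure ℚ) < 1 :=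
  (A.mem_nonunits_iff).mp hA

theorem valuation_eq_one (hq : q.Prime) (hA : A.LiesOverPrime q) {b : ℤ} (hb : ¬ (q : ℤ) ∣ b) :
    v (b : AlgebraicClosure ℚ) = 1 := by
  have hcop : IsCoprime (q : ℤ) b :=
    (Int.prime_iff_natAbs_prime.mpr (by simpa using hq)).coprime_iff_not_dvd.mpr hb
  obtain ⟨w, u, h⟩ := hcop
  have h1 : (u : AlgebraicClosure ℚ) * b = 1 - w * q := by
    have := congrArg (Int.cast : ℤ → AlgebraicClosure ℚ) h
    push_cast at this
    linear_combination this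
  have h2 : v ((w : AlgebraicClosure ℚ) * q) < 1 := by
    rw [map_mul]
    exact lt_of_le_of_lt (mul_le_of_le_one_left' (valuation_intCast_le w)) (valuation_q_lt hA)
  have h3 : v ((u : AlgebraicClosure ℚ) * b) = 1 := by
    rw [h1]
    have h4 := Valuation.map_sub_eq_of_lt_right v (x := (w : AlgebraicClosure ℚ) * q) (y := 1)
      (by rwa [map_one])
    have h5 : v (1 - (w : AlgebraicClosure ℚ) * q) = v ((w : AlgebraicClosure ℚ) * q - 1) :=
      Valuation.map_sub_swap _ _ _
    rw [h5, h4, map_one]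
  rw [map_mul] at h3
  refine le_antisymm (valuation_intCast_le b) ?_
  calc (1 : _) = v (u : AlgebraicClosure ℚ) * v (b : AlgebraicClosure ℚ) := h3.symm
    _ ≤ v (b : AlgebraicClosure ℚ) := mul_le_of_le_one_left' (valuation_intCast_le u)

theorem exists_valuation_int (hq : q.Prime) (hA : A.LiesOverPrime q) {a : ℤ} (ha : a ≠ 0) :
    ∃ k : ℕ, v (a : AlgebraicClosure ℚ) = v (q : AlgebraicClosure ℚ) ^ k := by
  have hfin : FiniteMultiplicity (q : ℤ) a :=
    Int.finiteMultiplicity_iff.mpr ⟨by simpa using hq.ne_one, ha⟩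
  obtain ⟨b, hb, hb'⟩ := hfin.exists_eq_pow_mul_and_not_dvd
  refine ⟨multiplicity (q : ℤ) a, ?_⟩
  rw [hb]
  push_cast
  rw [map_mul, map_pow, valuation_eq_one hq hA hb', mul_one]
  rw [← hb]

/-- Values are torsion over the value of `q`. -/
theorem exists_valuation_pow (hq : q.Prime) (hA : A.LiesOverPrime q) {x : AlgebraicClosure ℚ}
    (hx : x ≠ 0) : ∃ (n : ℕ) (k : ℤ), 0 < n ∧ v x ^ n = v (q : AlgebraicClosure ℚ) ^ k := by
  classical
  have hq0 : v (q : AlgebraicClosure ℚ) ≠ 0 := by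
    rw [Ne, map_eq_zero]
    exact_mod_cast hq.ne_zero
  have hvx : v x ≠ 0 := (Valuation.ne_zero_iff _).mpr hx
  have halg : IsAlgebraic ℤ x :=
    (IsFractionRing.isAlgebraic_iff ℤ ℚ (AlgebraicClosure ℚ)).mpr
      ((AlgebraicClosure.isAlgebraic ℚ).isAlgebraic x)
  obtain ⟨P, hP, hPx⟩ := halg
  let t : ℕ → AlgebraicClosure ℚ := fun i => (P.coeff i : AlgebraicClosure ℚ) * x ^ i
  have hsum : ∑ i ∈ P.support, t i = 0 := by
    rw [aeval_eq_sum_range] at hPx
    rw [← hPx]
    symm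
    rw [← Finset.sum_subset (s₁ := P.support)]
    · refine Finset.sum_congr rfl fun i _ => ?_
      simp only [t, zsmul_eq_mul]
    · intro i hi
      exact Finset.mem_range.mpr (Nat.lt_succ_of_le (le_natDegree_of_mem_supp i hi))
    · intro i _ hi
      rw [notMem_support_iff.mp hi, zero_smul]
  have ht0 : ∀ i ∈ P.support, t i ≠ 0 := fun i hi =>
    mul_ne_zero (by exact_mod_cast mem_support_iff.mp hi) (pow_ne_zero _ hx)
  obtain ⟨j, hj, hmax⟩ := Finset.exists_max_image P.support (fun i => v (t i))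
    (by rwa [Finset.nonempty_iff_ne_empty, Ne, support_eq_empty])
  obtain ⟨i, hi, hij, hval⟩ : ∃ i ∈ P.support, i ≠ j ∧ v (t i) = v (t j) := by
    by_contra hcon
    push Not at hcon
    have h1 : v (∑ i ∈ P.support, t i) = v (t j) :=
      Valuation.map_sum_eq_of_lt v hj
        fun i hi => lt_of_le_of_ne (hmax i (Finset.mem_sdiff.mp hi).1)
          (hcon i (Finset.mem_sdiff.mp hi).1 (by
            have := (Finset.mem_sdiff.mp hi).2
            rwa [Finset.mem_singleton] at this))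
    rw [hsum, map_zero] at h1
    exact ht0 j hj ((map_eq_zero _).mp h1.symm)
  obtain ⟨a, ha⟩ := exists_valuation_int hq hA (mem_support_iff.mp hi)
  obtain ⟨b, hb⟩ := exists_valuation_int hq hA (mem_support_iff.mp hj)
  simp only [t, map_mul, map_pow, ha, hb] at hval
  rcases lt_or_gt_of_ne hij with hlt | hlt
  · obtain ⟨d, rfl⟩ := Nat.exists_eq_add_of_lt hlt
    refine ⟨d + 1, a - b, Nat.succ_pos d, ?_⟩
    have h2 : v (q : AlgebraicClosure ℚ) ^ a = v (q : AlgebraicClosure ℚ) ^ b * v x ^ (d + 1) := by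
      have h3 : v x ^ i ≠ 0 := pow_ne_zero _ hvx
      apply mul_right_cancel₀ h3
      rw [hval, mul_assoc, ← pow_add]
      congr 2
      ring
    rw [zpow_sub₀ hq0, zpow_natCast, zpow_natCast, h2, mul_comm,
      mul_div_cancel_right₀ _ (pow_ne_zero _ hq0)]
  · obtain ⟨d, rfl⟩ := Nat.exists_eq_add_of_lt hlt
    refine ⟨d + 1, b - a, Nat.succ_pos d, ?_⟩
    have h2 : v (q : AlgebraicClosure ℚ) ^ b = v (q : AlgebraicClosure ℚ) ^ a * v x ^ (d + 1) := by
      have h3 : v x ^ j ≠ 0 := pow_ne_zero _ hvx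
      apply mul_right_cancel₀ h3
      rw [← hval, mul_assoc, ← pow_add]
      congr 2
      ring
    rw [zpow_sub₀ hq0, zpow_natCast, zpow_natCast, h2, mul_comm,
      mul_div_cancel_right₀ _ (pow_ne_zero _ hq0)]

/-- The archimedean property of places of `ℚ̄` above `q`. -/
theorem arch_of_liesOver (hq : q.Prime) (hA : A.LiesOverPrime q) :
    ∀ c ∈ A.nonunits, ∀ d : AlgebraicClosure ℚ, d ≠ 0 → ∃ n : ℕ, c ^ n / d ∈ A := by
  intro c hc d hd
  have hvc : v c < 1 := (A.mem_nonunits_iff).mp hc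
  have hq1 := valuation_q_lt hA
  have hq0 : v (q : AlgebraicClosure ℚ) ≠ 0 := by
    rw [Ne, map_eq_zero]
    exact_mod_cast hq.ne_zero
  rcases eq_or_ne c 0 with rfl | hc0
  · exact ⟨1, by rw [pow_one, zero_div]; exact A.zero_mem⟩
  rcases le_or_gt 1 (v d) with h1 | h1
  · refine ⟨0, ?_⟩
    rw [← A.valuation_le_one_iff, map_div₀, pow_zero, map_one]
    exact div_le_one_of_le₀ h1 zero_le'
  obtain ⟨n, k, hn, hk⟩ := exists_valuation_pow hq hA hc0
  obtain ⟨m, l, hm, hl⟩ := exists_valuation_pow hq hA hd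
  have hk0 : 0 < k := by
    by_contra hcon
    push Not at hcon
    have h2 : (1 : _) ≤ v (q : AlgebraicClosure ℚ) ^ k := by
      obtain ⟨k', rfl⟩ := Int.exists_eq_neg_ofNat hcon
      rw [zpow_neg, zpow_natCast]
      exact one_le_inv₀ (pow_pos (zero_lt_iff.mpr hq0) _) |>.mpr (pow_le_one₀ zero_le' hq1.le)
    rw [← hk] at h2
    exact absurd h2 (not_le.mpr (pow_lt_one₀ zero_le' hvc hn.ne'))
  have hl0 : 0 < l := by
    by_contra hcon
    push Not at hcon
    have h2 : (1 : _) ≤ v (q : AlgebraicClosure ℚ) ^ l := by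
      obtain ⟨k', rfl⟩ := Int.exists_eq_neg_ofNat hcon
      rw [zpow_neg, zpow_natCast]
      exact one_le_inv₀ (pow_pos (zero_lt_iff.mpr hq0) _) |>.mpr (pow_le_one₀ zero_le' hq1.le)
    rw [← hl] at h2
    exact absurd h2 (not_le.mpr (pow_lt_one₀ zero_le' h1 hm.ne'))
  lift k to ℕ using hk0.le
  lift l to ℕ using hl0.le
  rw [zpow_natCast] at hk hl
  refine ⟨n * l, ?_⟩
  rw [← A.valuation_le_one_iff, map_div₀]
  refine div_le_one_of_le₀ ?_ zero_le'
  calc v (c ^ (n * l)) = (v (q : AlgebraicClosure ℚ) ^ k) ^ l := by rw [map_pow, pow_mul, hk]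
    _ ≤ v (q : AlgebraicClosure ℚ) ^ l := by
        rw [← pow_mul]
        apply pow_le_pow_right_of_le_one' hq1.le
        have : 0 < k := by exact_mod_cast hk0
        exact Nat.le_mul_of_pos_left _ this
    _ = v d ^ m := hl.symm
    _ ≤ v d ^ 1 := pow_le_pow_right_of_le_one' h1.le hm
    _ = v d := pow_one _

end Fermat.Agent.AtN
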