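import Fermat.Agent.S18.Main
import Fermat.Agent.Deuring.Red
import Fermat.Agent.Igusa.Degree
import Fermat.Agent.Cofaith.Exists

/-!
# Level one: degree, genus zero and trivial Jacobian
-/

set_option autoImplicit false

noncomputable section

open AlgebraicCurve ModularCurve WithZero Module
open scoped IntermediateField
open Fermat.Agent.RR Fermat.Agent.FF Fermat.Agent.Deuring

namespace Fermat.Agent.AtN

section GenusZero

variable {K F : Type*} [Field K] [Field F] [Algebra K F] [IsAlgClosed K] [FF.IsFF K F]

attribute [local instance] Deuring.nonempty_place Deuring.finiteResidue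

/-- A rational function field has genus `0`. -/
theorem genusFF_eq_zero {T : F} (hT : Transcendental K T) (htop : K⟮T⟯ = ⊤) :
    genusFF K F = 0 := by
  classical
  have h1 : Divisor.degree (pole T : Divisor K F) = 1 := by
    rw [degree_pole hT, IntermediateField.finrank_eq_one_iff_eq_top.mpr htop]
    rfl
  have hT0 : T ≠ 0 := by rintro rfl; exact hT isAlgebraic_zero
  set n : ℕ := 2 * genusFF K F with hn
  have hdeg : Divisor.degree (n • (pole T : Divisor K F)) = n := by
    rw [map_nsmul, h1, nsmul_eq_mul, mul_one]
  have h2 := ell_large (K := K) (F := F) (D := n • (pole T : Divisor K F)) (by rw [hdeg]; omega)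
  rw [hdeg] at h2
  -- the powers `1, T, …, T ^ n` are independent
  have hmem : ∀ i : Fin (n + 1), T ^ (i : ℕ) ∈ riemannRochSpace (n • (pole T : Divisor K F)) := by
    intro i
    rw [mem_L_iff (pow_ne_zero _ hT0)]
    intro v
    have hi : ((i : ℕ) : ℤ) ≤ n := by exact_mod_cast Nat.lt_succ_iff.mp i.2
    have hpow : v.ord (T ^ (i : ℕ)) = (i : ℕ) * v.ord T := by
      induction (i : ℕ) with
      | zero => simp
      | succ m ih =>
        rw [pow_succ, v.ord_mul (pow_ne_zero _ hT0) hT0, ih]
        push_cast
        ring
    rw [hpow, Finsupp.smul_apply, pole_apply, nsmul_eq_mul]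
    rcases le_total 0 (v.ord T) with h | h
    · have h3 : max (-v.ord T) 0 = 0 := max_eq_right (by omega)
      rw [h3, mul_zero, neg_zero]
      positivity
    · have h3 : max (-v.ord T) 0 = -v.ord T := max_eq_left (by omega)
      rw [h3]
      nlinarith
  have hind : LinearIndependent K (fun i : Fin (n + 1) =>
      (⟨T ^ (i : ℕ), hmem i⟩ : riemannRochSpace (n • (pole T : Divisor K F)))) := by
    apply LinearIndependent.of_comp (Submodule.subtype _)
    have h3 := (transcendental_iff_injective.mp hT)
    have h4 : LinearIndependent K (fun i : ℕ => T ^ i) := by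
      have h5 := (Polynomial.basisMonomials K).linearIndependent.map'
        (Polynomial.aeval T).toLinearMap (LinearMap.ker_eq_bot.mpr h3)
      have h6 : (⇑(Polynomial.aeval T).toLinearMap ∘ ⇑(Polynomial.basisMonomials K)) =
          fun i : ℕ => T ^ i := by
        funext i
        simp
      rw [h6] at h5
      exact h5
    exact h4.comp (fun i : Fin (n + 1) => (i : ℕ)) Fin.val_injective
  have h3 := hind.fintype_card_le_finrank
  rw [Fintype.card_fin] at h3
  change n + 1 ≤ ell _ at h3
  omega

theorem eq_zero_of_nonneg_of_degree {D : Divisor K F} (h : ∀ v, 0 ≤ D v)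
    (hD : Divisor.degree D = 0) : D = 0 := by
  classical
  ext v
  rw [Finsupp.zero_apply]
  by_contra hv
  have h1 : Finsupp.single v 1 ≤ D := by
    intro w
    rw [Finsupp.single_apply]
    split_ifs with hw
    · subst hw
      have := h v
      omega
    · exact h w
  have h2 := degree_mono h1
  rw [degree_single_one, hD] at h2
  omega

/-- In genus `0` the class group is trivial. -/
theorem pic0_eq_zero (hg : genusFF K F = 0) (x : Pic0 K F) : x = 0 := by
  classical
  obtain ⟨D, rfl⟩ := Pic0.mk_surjective x
  have hD : Divisor.degree (D : Divisor K F) = 0 := D.2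
  have h1 := ell_large (K := K) (F := F) (D := -(D : Divisor K F))
    (by rw [map_neg, hD, hg]; norm_num)
  rw [map_neg, hD, hg] at h1
  have h2 : 0 < ell (-(D : Divisor K F)) := by omega
  have h3 : 0 < finrank K (riemannRochSpace (-(D : Divisor K F))) := h2
  have : Nontrivial (riemannRochSpace (-(D : Divisor K F))) := Module.nontrivial_of_finrank_pos h3
  obtain ⟨⟨f, hf⟩, hf0⟩ := exists_ne (0 : riemannRochSpace (-(D : Divisor K F)))
  have hf1 : f ≠ 0 := fun h => hf0 (Subtype.ext h)
  rw [mem_L_iff hf1] at hf
  have h4 : ∀ v : Place K F, (D : Divisor K F) v ≤ v.ord f := fun v => by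
    have := hf v
    rw [Finsupp.neg_apply, neg_neg] at this
    exact this
  -- the difference is effective of degree zero
  have h5 : div f - (D : Divisor K F) = 0 := by
    have hdeg : Divisor.degree (div f - (D : Divisor K F)) = 0 := by
      rw [map_sub, hD, degree_div, sub_zero]
    apply eq_zero_of_nonneg_of_degree _ hdeg
    intro v
    rw [Finsupp.sub_apply, div_apply]
    have := h4 v
    omega
  have h6 : (D : Divisor K F).IsPrincipal := ⟨f, hf1, fun v => by
    have := DFunLike.congr_fun h5 v
    rw [Finsupp.sub_apply, div_apply, Finsupp.zero_apply] at this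
    omega⟩
  exact (QuotientAddGroup.eq_zero_iff _).mpr h6

end GenusZero

/-- The full field of level one is generated by `j`. -/
theorem fullC_one (k : Type*) [Field k] :
    modularFunctionFieldFullC k 1 = IntermediateField.adjoin k {jqModC k} := by
  rw [modularFunctionFieldFullC]
  congr 1
  ext x
  constructor
  · rintro ⟨d, hd0, hd, rfl⟩
    obtain rfl : d = 1 := Nat.dvd_one.mp hd
    exact qExpand_one_apply _
  · rintro rfl
    exact ⟨1, inferInstance, dvd_rfl, (qExpand_one_apply _).symm⟩

theorem adjoin_eq_top_of_eq {k L : Type*} [Field k] [Field L] [Algebra k L]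
    (E : IntermediateField k L) {x : L} (hE : E = IntermediateField.adjoin k {x}) (hx : x ∈ E) :
    IntermediateField.adjoin k {(⟨x, hx⟩ : E)} = ⊤ := by
  have h1 : (IntermediateField.adjoin k {(⟨x, hx⟩ : E)}).map E.val = E := by
    rw [IntermediateField.adjoin_map, Set.image_singleton]
    exact hE.symm
  rw [eq_top_iff]
  rintro ⟨y, hy⟩ -
  rw [← h1] at hy
  obtain ⟨z, hz, hzy⟩ := hy
  have : z = ⟨y, by rw [← hzy]; exact z.2⟩ := Subtype.ext hzy
  rw [← this]
  exact hz

/-- The degree theorem at level one. -/
theorem degThm_one (k : Type*) [Field k] : S18aux.DegThm k 1 := by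
  rw [S18aux.DegThm, dedekindPsi_one]
  exact IntermediateField.finrank_eq_one_iff_eq_top.mpr
    (adjoin_eq_top_of_eq _ (fullC_one k) (jqModC_mem_full k 1))

theorem genus_bar_one :
    genusFF (AlgebraicClosure ℚ) (modularFunctionFieldBar 1) = 0 := by
  haveI := Fermat.Agent.Cofaith.isFF_bar 1
  have hE := (S18aux.bar_eq 1).trans (fullC_one (AlgebraicClosure ℚ))
  have hx : jqModC (AlgebraicClosure ℚ) ∈ modularFunctionFieldBar 1 := by
    rw [hE]
    exact IntermediateField.mem_adjoin_simple_self _ _
  exact genusFF_eq_zero (T := (⟨jqModC (AlgebraicClosure ℚ), hx⟩ : modularFunctionFieldBar 1))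
    (Igusa.transcendental_coe _ _ (Igusa.transcendental_jq _)) (adjoin_eq_top_of_eq _ hE hx)

theorem genus_le_one (k : Type*) [Field k] :
    genusFF (AlgebraicClosure ℚ) (modularFunctionFieldBar 1) ≤
      genusFF k (modularFunctionFieldFullC k 1) := by
  rw [genus_bar_one]
  exact Nat.zero_le _

/-- The Jacobian of level one is trivial. -/
theorem jZero_one (x : JZero 1) : x = 0 := by
  haveI := Fermat.Agent.Cofaith.isFF_bar 1
  exact pic0_eq_zero genus_bar_one x

end Fermat.Agent.AtN

end
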