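import Fermat.Agent.QX4.Input
import Fermat.Agent.TwoComp.Bridge
import Fermat.Agent.GoodRed.GenusAll
import Fermat.Agent.AtN.LevelOne
import Fermat.Agent.AtN.Arch
import Fermat.Agent.Mazur.Input

/-!
# Multiplicative reduction of `J₀(N)` at the prime `N`
-/

set_option autoImplicit false
set_option linter.style.haveILetI false
set_option linter.unusedSectionVars false

noncomputable section

open ModularCurve AlgebraicCurve
open Fermat.Agent.GaussVal Fermat.Agent.GalRep Fermat.Agent.FF Fermat.Agent.QX4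
open Fermat.Agent.TwoGauss (mkData act_mkData_frobenius act_mkData_inertia degEq)

namespace Fermat.Agent.AtN

section Level

variable {m q : ℕ} [NeZero m]

theorem arch_mkData {hq : q.Prime} {hm : ¬ q ∣ m} {A : ValuationSubring (AlgebraicClosure ℚ)}
    {hA : A.LiesOverPrime q} [Fact q.Prime] [CharP (IsLocalRing.ResidueField A) q]
    [PerfectRing (IsLocalRing.ResidueField A) q]
    {H3 : S18aux.DegThm (IsLocalRing.ResidueField A) m} {H2} :
    (mkData hq hm hA H3 H2).Arch := arch_of_liesOver hq hA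

theorem natCast_ne_zero {A : ValuationSubring (AlgebraicClosure ℚ)} (hq : q.Prime)
    [CharP (IsLocalRing.ResidueField A) q] {n : ℕ} (hnq : n.Coprime q) :
    (n : IsLocalRing.ResidueField A) ≠ 0 := by
  rw [Ne, CharP.cast_eq_zero_iff _ q]
  intro h
  exact hq.one_lt.ne' (Nat.eq_one_of_dvd_coprimes hnq h dvd_rfl)

/-- **Unipotence of inertia at `q` on the prime-to-`q` torsion of `J₀(m q)`**, `q ∤ m`. -/
theorem unipotent_level (hq : q.Prime) (hm : ¬ q ∣ m) {A : ValuationSubring (AlgebraicClosure ℚ)}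
    (hA : A.LiesOverPrime q) {τ τ' : GQ} (hτ : τ ∈ A.inertiaSubgroupIn ℚ)
    (hτ' : τ' ∈ A.inertiaSubgroupIn ℚ) {n : ℕ} (hnq : n.Coprime q) {x : JZero (m * q)}
    (hx : n • x = 0) : τ • (τ' • x - x) = τ' • x - x := by
  haveI : NeZero q := ⟨hq.ne_zero⟩
  haveI : Fact q.Prime := ⟨hq⟩
  haveI : CharP (IsLocalRing.ResidueField A) q := TEll.charP_residueField A q hA
  haveI : PerfectRing (IsLocalRing.ResidueField A) q := PerfectField.toPerfectRing q
  have H3 := GoodRed.degThm_res hq hA (NeZero.ne m) hm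
  have H2 := GoodRed.genus_le_all hq hA m hm
  haveI : IsFF (IsLocalRing.ResidueField A)
    (modularFunctionFieldFullC (IsLocalRing.ResidueField A) m) := (degEq (m := m) H3).isFF'
  exact (act_mkData_inertia hq hm hA H3 H2 hτ').toAct_id.unipotent
    (act_mkData_inertia hq hm hA H3 H2 hτ).toAct_id hq.two_le (arch_mkData (H3 := H3) (H2 := H2))
    (natCast_ne_zero hq hnq) hx

/-- the geometric input at every level `m` prime to `q` -/
theorem geoInput [Fact q.Prime] (hm : ¬ q ∣ m) : GeoInput (m := m) hm := by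
  intro A hA hch
  have hq : q.Prime := Fact.out
  haveI : PerfectRing (IsLocalRing.ResidueField A) q := PerfectField.toPerfectRing q
  have H3 := GoodRed.degThm_res hq hA (NeZero.ne m) hm
  have H2 := GoodRed.genus_le_all hq hA m hm
  haveI : IsFF (IsLocalRing.ResidueField A)
    (modularFunctionFieldFullC (IsLocalRing.ResidueField A) m) := (degEq (m := m) H3).isFF'
  refine ⟨mkData hq hm hA H3 H2, compat_mkData _ _ _ _ _,
    (compat_mkData _ _ _ _ _).torusInput fun φ hφ n hn hnq x hx ht => ?_⟩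
  exact TwoComp.Data.smul_smul_of_toric hq.two_le (arch_mkData (H3 := H3) (H2 := H2))
    (natCast_ne_zero hq hnq) (act_mkData_frobenius hq hm hA H3 H2 hφ) ht

/-- **The relation `(φ² - 1)(φ² - q²) = 0` on the classes of `J₀(m q)` killed by both degeneracy
maps to level `m`**, `q ∤ m`. -/
theorem relAt_mul (hq : q.Prime) (hm : ¬ q ∣ m) {A : ValuationSubring (AlgebraicClosure ℚ)}
    (hA : A.LiesOverPrime q) {φ : GQ} (hφ : A.IsFrobeniusAt φ q) {n : ℕ} (hn : 0 < n)
    (hnq : n.Coprime q) :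
    haveI : NeZero q := ⟨hq.ne_zero⟩
    ∀ y : JZero (m * q), n • y = 0 → pushA m q y = 0 → pushA m q (wJ hq hm y) = 0 →
      RelAt q φ y := by
  haveI : NeZero q := ⟨hq.ne_zero⟩
  haveI : Fact q.Prime := ⟨hq⟩
  intro y hy h1 h2
  exact relAt_level hm (geoInput hm) hA hφ hn hnq y hy h1 h2

end Level

section Prime

variable {N : ℕ} [NeZero N]

/-- **Unipotence of inertia at `N` on the prime-to-`N` torsion of `J₀(N)`**, `N` prime. -/
theorem unipotent_prime (hN : N.Prime) {B : ValuationSubring (AlgebraicClosure ℚ)}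
    (hB : B.LiesOverPrime N) {τ τ' : GQ} (hτ : τ ∈ B.inertiaSubgroupIn ℚ)
    (hτ' : τ' ∈ B.inertiaSubgroupIn ℚ) {n : ℕ} (hn : n.Coprime N) {x : JZero N}
    (hx : n • x = 0) : τ • (τ' • x - x) = τ' • x - x := by
  have key : ∀ (M : ℕ) [NeZero M], M = 1 * N → ∀ x : JZero M, n • x = 0 →
      τ • (τ' • x - x) = τ' • x - x := by
    intro M _ h x hx
    subst h
    exact unipotent_level hN (fun h => hN.one_lt.ne' (Nat.dvd_one.mp h)) hB hτ hτ' hn hx
  exact key N (one_mul N).symm x hx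

/-- **The relation `(φ² - 1)(φ² - N²) = 0` on the prime-to-`N` torsion of `J₀(N)`**, `N` prime. -/
theorem relAt_prime (hN : N.Prime) {B : ValuationSubring (AlgebraicClosure ℚ)}
    (hB : B.LiesOverPrime N) {φ : GQ} (hφ : B.IsFrobeniusAt φ N) {n : ℕ} (hn0 : 0 < n)
    (hn : n.Coprime N) {x : JZero N} (hx : n • x = 0) : RelAt N φ x := by
  have key : ∀ (M : ℕ) [NeZero M], M = 1 * N → ∀ x : JZero M, n • x = 0 → RelAt N φ x := by
    intro M _ h x hx
    subst h
    exact relAt_mul hN (fun h => hN.one_lt.ne' (Nat.dvd_one.mp h)) hB hφ hn0 hn x hx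
      (jZero_one _) (jZero_one _)
  exact key N (one_mul N).symm x hx

open Fermat.Agent.Mazur in
/-- the relation as an identity in the endomorphism ring -/
theorem end_apply {J : Type*} [AddCommGroup J] [DistribMulAction GQ J] {N : ℕ} {φ : GQ} {x : J}
    (h : RelAt N φ x) :
    (((gEnd J φ) ^ 2 - 1) ^ 1 * ((gEnd J φ) ^ 2 - ((N ^ 2 : ℕ) : AddMonoid.End J)) ^ 1 :
      AddMonoid.End J) x = 0 := by
  have h1 : ∀ y : J, ((gEnd J φ) ^ 2) y = φ • φ • y := fun y => by
    rw [pow_two]; rfl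
  have h2 : ∀ y : J, ((N ^ 2 : ℕ) : AddMonoid.End J) y = N ^ 2 • y := fun y => by
    rw [AddMonoid.End.natCast_apply]
  rw [pow_one, pow_one]
  have h0 : ∀ f g : AddMonoid.End J, (f * g) x = f (g x) := fun _ _ => rfl
  rw [h0]
  have h3 : ((gEnd J φ) ^ 2 - ((N ^ 2 : ℕ) : AddMonoid.End J)) x = φ • φ • x - N ^ 2 • x := by
    have : ((gEnd J φ) ^ 2 - ((N ^ 2 : ℕ) : AddMonoid.End J)) x =
      ((gEnd J φ) ^ 2) x - ((N ^ 2 : ℕ) : AddMonoid.End J) x := rfl
    rw [this, h1, h2]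
  have h4 : ∀ y : J, ((gEnd J φ) ^ 2 - 1 : AddMonoid.End J) y = φ • φ • y - y := fun y => by
    have : ((gEnd J φ) ^ 2 - 1 : AddMonoid.End J) y = ((gEnd J φ) ^ 2) y - y := rfl
    rw [this, h1]
  rw [h3, h4, sub_eq_zero]
  exact h

open Fermat.Agent.Mazur in
/-- **Multiplicative reduction of `J₀(N)` at the prime `N`**: for every place `B` above `N` and
every Frobenius at `B`. -/
theorem atN_all (hN : N.Prime) {B : ValuationSubring (AlgebraicClosure ℚ)}
    (hB : B.LiesOverPrime N) :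
    (∀ τ ∈ B.inertiaSubgroupIn ℚ, ∀ τ' ∈ B.inertiaSubgroupIn ℚ, ∀ n : ℕ, n.Coprime N →
      ∀ x : JZero N, n • x = 0 → τ • (τ' • x - x) - (τ' • x - x) = 0) ∧
    ∀ φ : GQ, B.IsFrobeniusAt φ N → ∀ n : ℕ, 0 < n → n.Coprime N →
      ∀ x : JZero N, n • x = 0 →
      (((gEnd (JZero N) φ) ^ 2 - 1) ^ 1 *
        ((gEnd (JZero N) φ) ^ 2 - ((N ^ 2 : ℕ) : AddMonoid.End (JZero N))) ^ 1 :
        AddMonoid.End (JZero N)) x = 0 :=
  ⟨fun _ hτ _ hτ' _ hn _ hx => sub_eq_zero.mpr (unipotent_prime hN hB hτ hτ' hn hx),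
    fun _ hφ _ hn0 hn _ hx => end_apply (relAt_prime hN hB hφ hn0 hn hx)⟩

open Fermat.Agent.Mazur in
/-- **The field `atN` of `EisInput`**, for every Hecke ring `R` acting on `J₀(N)`. -/
theorem atN (hN : N.Prime) {q : ℕ} (hq : q.Prime) (hqN : q ≠ N) {R : Type*} [CommRing R]
    (P : Ideal R) [Module R (JZero N)] :
    ∃ B : ValuationSubring (AlgebraicClosure ℚ), B.LiesOverPrime N ∧
    (∀ τ ∈ B.inertiaSubgroupIn ℚ, ∀ τ' ∈ B.inertiaSubgroupIn ℚ, ∀ x ∈ PPrim q P (JZero N),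
      τ • (τ' • x - x) - (τ' • x - x) = 0) ∧
    ∃ φ : GQ, B.IsFrobeniusAt φ N ∧ ∃ a : ℕ, ∀ x ∈ PPrim q P (JZero N),
      (((gEnd (JZero N) φ) ^ 2 - 1) ^ a *
        ((gEnd (JZero N) φ) ^ 2 - ((N ^ 2 : ℕ) : AddMonoid.End (JZero N))) ^ a :
        AddMonoid.End (JZero N)) x = 0 := by
  obtain ⟨B, hB, φ, hφ⟩ := Fermat.Agent.Frob.exists_frobenius N hN
  have hc : ∀ n : ℕ, (q ^ n).Coprime N := fun n =>
    Nat.Coprime.pow_left n ((Nat.coprime_primes hq hN).mpr hqN)
  refine ⟨B, hB, fun τ hτ τ' hτ' x hx => ?_, φ, hφ, 1, fun x hx => ?_⟩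
  · obtain ⟨⟨n, hn⟩, -⟩ := hx
    exact (atN_all hN hB).1 τ hτ τ' hτ' _ (hc n) x hn
  · obtain ⟨⟨n, hn⟩, -⟩ := hx
    exact (atN_all hN hB).2 φ hφ _ (pow_pos hq.pos n) (hc n) x hn

end Prime

end Fermat.Agent.AtN

end
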